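import Mathlib

/-!
# Lemma FE (helper7, report #3041 §2), part 1: the coefficient identity.
-/

set_option autoImplicit false

open scoped BigOperators

namespace Fermat.Agent.S41.CspFE7

variable {r : ℕ} [Fact r.Prime] {F : Type*} [Field F]

/-- Fourier coefficient of `Ψ` at the multiplicative character `χ`. -/
noncomputable def coef (Ψ : ZMod r → F) (χ : MulChar (ZMod r) F) : F :=
  ∑ z : ZMod r, Ψ z * χ⁻¹ z

/-- The functional equation (ii) for a fixed `w`, on non-zero arguments. -/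
def FE (Ψ : ZMod r → F) (w : ZMod r) : Prop :=
  ∀ x y L : ZMod r, x ≠ 0 → y ≠ 0 → x * y ≠ -1 → x * y ≠ -w →
    L * (x * y + 1) = x * y + w → Ψ (x * L) + Ψ (y * L⁻¹) = Ψ x + Ψ y

lemma inv_char_inv (χ : MulChar (ZMod r) F) (z : ZMod r) : χ⁻¹ z⁻¹ = χ z := by
  rw [MulChar.inv_apply', inv_inv]

/-- reindexing by `x ↦ P * x⁻¹ * M` (an involution of `ZMod r` when `P, M ≠ 0`... we only need
the bijection). -/
lemma sum_invol (P : ZMod r) (hP : P ≠ 0) (g : ZMod r → F) :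
    ∑ x : ZMod r, g (P * x⁻¹) = ∑ z : ZMod r, g z := by
  have hinv : Function.Involutive (fun x : ZMod r => P * x⁻¹) := by
    intro x
    by_cases hx : x = 0
    · simp [hx]
    · field_simp
  exact Equiv.sum_comp (hinv.toPerm _) g

/-- (FE1) the coefficient identity. -/
theorem coef_identity (Ψ : ZMod r → F) (w : ZMod r) (h : FE Ψ w)
    (χ : MulChar (ZMod r) F) (P L : ZMod r) (hP0 : P ≠ 0) (hP1 : P ≠ -1) (hPw : P ≠ -w)
    (hL : L * (P + 1) = P + w) :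
    (χ L - 1) * (coef Ψ χ + χ⁻¹ P * coef Ψ χ⁻¹) = 0 := by
  have hL0 : L ≠ 0 := by
    rintro rfl
    rw [zero_mul] at hL
    exact hPw (eq_neg_of_add_eq_zero_left hL.symm)
  -- pointwise weighted identity
  have hpt : ∀ x : ZMod r, (Ψ (x * L) + Ψ (P * x⁻¹ * L⁻¹)) * χ⁻¹ x
      = (Ψ x + Ψ (P * x⁻¹)) * χ⁻¹ x := by
    intro x
    by_cases hx : x = 0
    · subst hx; simp
    · have hy : P * x⁻¹ ≠ 0 := mul_ne_zero hP0 (inv_ne_zero hx)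
      have hxy : x * (P * x⁻¹) = P := by field_simp
      have := h x (P * x⁻¹) L hx hy (by rw [hxy]; exact hP1) (by rw [hxy]; exact hPw)
        (by rw [hxy]; exact hL)
      rw [this]
  have hsum := Finset.sum_congr (rfl : (Finset.univ : Finset (ZMod r)) = Finset.univ)
    (fun x _ => hpt x)
  simp only [add_mul, Finset.sum_add_distrib] at hsum
  -- S1
  have hS1 : ∑ x : ZMod r, Ψ (x * L) * χ⁻¹ x = χ L * coef Ψ χ := by
    have : ∑ x : ZMod r, Ψ (x * L) * χ⁻¹ (x * L * L⁻¹) = ∑ z : ZMod r, Ψ z * χ⁻¹ (z * L⁻¹) :=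
      Equiv.sum_comp (Equiv.mulRight₀ L hL0) (fun z => Ψ z * χ⁻¹ (z * L⁻¹))
    rw [show (∑ x : ZMod r, Ψ (x * L) * χ⁻¹ x)
        = ∑ x : ZMod r, Ψ (x * L) * χ⁻¹ (x * L * L⁻¹) from
      Finset.sum_congr rfl (fun x _ => by rw [mul_inv_cancel_right₀ hL0])]
    rw [this, coef, Finset.mul_sum]
    refine Finset.sum_congr rfl (fun z _ => ?_)
    rw [map_mul, inv_char_inv]; ring
  -- S3
  have hS3 : ∑ x : ZMod r, Ψ x * χ⁻¹ x = coef Ψ χ := rfl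
  -- S4
  have hS4 : ∑ x : ZMod r, Ψ (P * x⁻¹) * χ⁻¹ x = χ⁻¹ P * coef Ψ χ⁻¹ := by
    have : ∑ x : ZMod r, Ψ (P * x⁻¹) * χ⁻¹ (P * (P * x⁻¹)⁻¹) = ∑ z : ZMod r, Ψ z * χ⁻¹ (P * z⁻¹) :=
      sum_invol P hP0 (fun z => Ψ z * χ⁻¹ (P * z⁻¹))
    rw [show (∑ x : ZMod r, Ψ (P * x⁻¹) * χ⁻¹ x)
        = ∑ x : ZMod r, Ψ (P * x⁻¹) * χ⁻¹ (P * (P * x⁻¹)⁻¹) from
      Finset.sum_congr rfl (fun x _ => by
        by_cases hx : x = 0
        · subst hx; simp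
        · congr 2; field_simp)]
    rw [this, coef, Finset.mul_sum]
    refine Finset.sum_congr rfl (fun z _ => ?_)
    rw [map_mul, inv_char_inv, inv_inv]; ring
  -- S2
  have hS2 : ∑ x : ZMod r, Ψ (P * x⁻¹ * L⁻¹) * χ⁻¹ x = χ⁻¹ P * χ L * coef Ψ χ⁻¹ := by
    have hPL : P * L⁻¹ ≠ 0 := mul_ne_zero hP0 (inv_ne_zero hL0)
    have : ∑ x : ZMod r, Ψ (P * L⁻¹ * x⁻¹) * χ⁻¹ (P * L⁻¹ * (P * L⁻¹ * x⁻¹)⁻¹)
        = ∑ z : ZMod r, Ψ z * χ⁻¹ (P * L⁻¹ * z⁻¹) :=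
      sum_invol (P * L⁻¹) hPL (fun z => Ψ z * χ⁻¹ (P * L⁻¹ * z⁻¹))
    rw [show (∑ x : ZMod r, Ψ (P * x⁻¹ * L⁻¹) * χ⁻¹ x)
        = ∑ x : ZMod r, Ψ (P * L⁻¹ * x⁻¹) * χ⁻¹ (P * L⁻¹ * (P * L⁻¹ * x⁻¹)⁻¹) from
      Finset.sum_congr rfl (fun x _ => by
        by_cases hx : x = 0
        · subst hx; simp
        · rw [show P * x⁻¹ * L⁻¹ = P * L⁻¹ * x⁻¹ by ring]
          congr 2; field_simp)]
    rw [this, coef, Finset.mul_sum]
    refine Finset.sum_congr rfl (fun z _ => ?_)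
    rw [map_mul, map_mul, inv_char_inv, inv_char_inv, inv_inv]; ring
  rw [hS1, hS2, hS3, hS4] at hsum
  linear_combination hsum

end Fermat.Agent.S41.CspFE7
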