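import Mathlib

/-!
# Lemma FE (helper7, report #3041 §2), parts 2 and 3: the two counting arguments.
-/

set_option autoImplicit false

open scoped BigOperators

namespace Fermat.Agent.S41.CspFE7

variable {r : ℕ} [Fact r.Prime] {F : Type*} [Field F]

open Classical in
/-- fibre of `χ` over `v`. -/
noncomputable def fib (χ : MulChar (ZMod r) F) (v : F) : Finset (ZMod r) :=
  Finset.univ.filter (fun u => χ u = v)

lemma mem_fib (χ : MulChar (ZMod r) F) (v : F) (u : ZMod r) : u ∈ fib χ v ↔ χ u = v := by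
  simp [fib]

lemma ne_zero_of_mem_fib (χ : MulChar (ZMod r) F) {v : F} (hv : v ≠ 0) {u : ZMod r}
    (hu : u ∈ fib χ v) : u ≠ 0 := by
  rintro rfl
  rw [mem_fib, MulChar.map_zero] at hu
  exact hv hu.symm

lemma char_ne_zero (χ : MulChar (ZMod r) F) {u : ZMod r} (hu : u ≠ 0) : χ u ≠ 0 :=
  ((isUnit_iff_ne_zero.mpr hu).map χ).ne_zero

/-- the Möbius map `P ↦ (P + w) / (P + 1)`. -/
noncomputable def Lmap (w P : ZMod r) : ZMod r := (P + w) * (P + 1)⁻¹

lemma Lmap_spec (w P : ZMod r) (hP1 : P ≠ -1) : Lmap w P * (P + 1) = P + w := by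
  have h1 : P + 1 ≠ 0 := fun h => hP1 (eq_neg_of_add_eq_zero_left h)
  unfold Lmap
  rw [mul_assoc, inv_mul_cancel₀ h1, mul_one]

lemma Lmap_inj (w : ZMod r) (hw1 : w ≠ 1) {P P' : ZMod r} (hP : P ≠ -1) (hP' : P' ≠ -1)
    (h : Lmap w P = Lmap w P') : P = P' := by
  have e1 := Lmap_spec w P hP
  have e2 := Lmap_spec w P' hP'
  rw [h] at e1
  have h3 : (P - P') * (1 - w) = 0 := by
    linear_combination (P + 1) * e2 - (P' + 1) * e1
  rcases mul_eq_zero.mp h3 with h4 | h4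
  · exact sub_eq_zero.mp h4
  · exact absurd (sub_eq_zero.mp h4).symm hw1

lemma Lmap_ne_one (w : ZMod r) (hw1 : w ≠ 1) {P : ZMod r} (hP : P ≠ -1) : Lmap w P ≠ 1 := by
  intro h
  have e1 := Lmap_spec w P hP
  rw [h, one_mul] at e1
  exact hw1 (add_left_cancel e1).symm

lemma Lmap_ne_w (w : ZMod r) (hw1 : w ≠ 1) {P : ZMod r} (hP : P ≠ -1) (hP0 : P ≠ 0) :
    Lmap w P ≠ w := by
  intro h
  have e1 := Lmap_spec w P hP
  rw [h] at e1
  have h3 : P * (w - 1) = 0 := by linear_combination e1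
  rcases mul_eq_zero.mp h3 with h4 | h4
  · exact hP0 h4
  · exact hw1 (sub_eq_zero.mp h4)

lemma card_fib_one_le (χ : MulChar (ZMod r) F) {u0 : ZMod r} (hu0 : u0 ≠ 0) :
    (fib χ 1).card ≤ (fib χ (χ u0)).card := by
  apply Finset.card_le_card_of_injOn (fun u => u0 * u)
  · intro u hu
    have hu' : χ u = 1 := (mem_fib χ 1 u).mp hu
    show u0 * u ∈ fib χ (χ u0)
    rw [mem_fib, map_mul, hu', mul_one]
  · intro u _ u' _ h
    exact mul_left_cancel₀ hu0 h

lemma card_le_fib_one (χ : MulChar (ZMod r) F) (B : Finset (ZMod r))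
    (hB0 : ∀ P ∈ B, P ≠ 0) (hB : ∀ P ∈ B, ∀ P' ∈ B, χ P = χ P') :
    B.card ≤ (fib χ 1).card := by
  rcases B.eq_empty_or_nonempty with rfl | ⟨P0, hP0⟩
  · simp
  · have h0 : P0 ≠ 0 := hB0 P0 hP0
    have hχ0 : χ P0 ≠ 0 := char_ne_zero χ h0
    apply Finset.card_le_card_of_injOn (fun P => P * P0⁻¹)
    · intro P hP
      show P * P0⁻¹ ∈ fib χ 1
      rw [mem_fib]
      have h1 : χ (P * P0⁻¹) * χ P0 = 1 * χ P0 := by
        rw [← map_mul, inv_mul_cancel_right₀ h0, one_mul, hB P hP P0 hP0]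
      exact mul_right_cancel₀ hχ0 h1
    · intro P _ P' _ h
      exact mul_right_cancel₀ (inv_ne_zero h0) h

lemma card_nonzero : (Finset.univ.erase (0 : ZMod r)).card = r - 1 := by
  rw [Finset.card_erase_of_mem (Finset.mem_univ _), Finset.card_univ, ZMod.card]

lemma three_mul_card_fib_one_le (χ : MulChar (ZMod r) F) (hχ : χ ^ 2 ≠ 1) :
    3 * (fib χ 1).card ≤ r - 1 := by
  classical
  obtain ⟨u0, hu0⟩ := (MulChar.ne_one_iff (χ := χ ^ 2)).mp hχ
  rw [MulChar.pow_apply_coe] at hu0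
  have hu00 : (u0 : ZMod r) ≠ 0 := u0.ne_zero
  have hζ0 : χ (u0 : ZMod r) ≠ 0 := char_ne_zero χ hu00
  have hζ1 : χ (u0 : ZMod r) ≠ 1 := by
    intro h
    rw [h, one_pow] at hu0
    exact hu0 rfl
  have hζ2 : χ (u0 : ZMod r) ^ 2 ≠ χ (u0 : ZMod r) := by
    intro h
    have h3 : χ (u0 : ZMod r) * (χ (u0 : ZMod r) - 1) = 0 := by linear_combination h
    rcases mul_eq_zero.mp h3 with h4 | h4
    · exact hζ0 h4
    · exact hζ1 (sub_eq_zero.mp h4)
  have c1 : (fib χ 1).card ≤ (fib χ (χ (u0 : ZMod r))).card := card_fib_one_le χ hu00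
  have c2 : (fib χ 1).card ≤ (fib χ (χ (u0 : ZMod r) ^ 2)).card := by
    have := card_fib_one_le χ (pow_ne_zero 2 hu00)
    rwa [map_pow] at this
  have d1 : Disjoint (fib χ 1) (fib χ (χ (u0 : ZMod r))) := by
    rw [Finset.disjoint_left]
    intro u h1 h2
    rw [mem_fib] at h1 h2
    exact hζ1 (h2.symm.trans h1)
  have d2 : Disjoint (fib χ 1 ∪ fib χ (χ (u0 : ZMod r))) (fib χ (χ (u0 : ZMod r) ^ 2)) := by
    rw [Finset.disjoint_left]
    intro u h1 h2
    rw [mem_fib] at h2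
    rcases Finset.mem_union.mp h1 with h | h <;> rw [mem_fib] at h
    · exact hu0 (h2.symm.trans h)
    · exact hζ2 (h2.symm.trans h)
  have hsub : (fib χ 1 ∪ fib χ (χ (u0 : ZMod r))) ∪ fib χ (χ (u0 : ZMod r) ^ 2)
      ⊆ Finset.univ.erase 0 := by
    intro u hu
    rw [Finset.mem_erase]
    refine ⟨?_, Finset.mem_univ _⟩
    rcases Finset.mem_union.mp hu with h | h
    · rcases Finset.mem_union.mp h with h | h
      · exact ne_zero_of_mem_fib χ one_ne_zero h
      · exact ne_zero_of_mem_fib χ hζ0 h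
    · exact ne_zero_of_mem_fib χ (pow_ne_zero 2 hζ0) h
  have hcard := Finset.card_le_card hsub
  rw [Finset.card_union_of_disjoint d2, Finset.card_union_of_disjoint d1, card_nonzero] at hcard
  omega

lemma two_mul_card_fib_one_le (χ : MulChar (ZMod r) F) (hχ : χ ≠ 1) :
    2 * (fib χ 1).card ≤ r - 1 := by
  classical
  obtain ⟨u0, hu0⟩ := (MulChar.ne_one_iff (χ := χ)).mp hχ
  have hu00 : (u0 : ZMod r) ≠ 0 := u0.ne_zero
  have hζ0 : χ (u0 : ZMod r) ≠ 0 := char_ne_zero χ hu00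
  have c1 : (fib χ 1).card ≤ (fib χ (χ (u0 : ZMod r))).card := card_fib_one_le χ hu00
  have d1 : Disjoint (fib χ 1) (fib χ (χ (u0 : ZMod r))) := by
    rw [Finset.disjoint_left]
    intro u h1 h2
    rw [mem_fib] at h1 h2
    exact hu0 (h2.symm.trans h1)
  have hsub : fib χ 1 ∪ fib χ (χ (u0 : ZMod r)) ⊆ Finset.univ.erase 0 := by
    intro u hu
    rw [Finset.mem_erase]
    refine ⟨?_, Finset.mem_univ _⟩
    rcases Finset.mem_union.mp hu with h | h
    · exact ne_zero_of_mem_fib χ one_ne_zero h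
    · exact ne_zero_of_mem_fib χ hζ0 h
  have hcard := Finset.card_le_card hsub
  rw [Finset.card_union_of_disjoint d1, card_nonzero] at hcard
  omega

/-- (FE2) characters with `χ ^ 2 ≠ 1` have zero coefficient (pure counting). -/
theorem coef_eq_zero_of_sq_ne_one (hr : 5 ≤ r) (w : ZMod r) (hw0 : w ≠ 0) (hw1 : w ≠ 1)
    (c : MulChar (ZMod r) F → F) (χ : MulChar (ZMod r) F) (hχ : χ ^ 2 ≠ 1)
    (hid : ∀ P L : ZMod r, P ≠ 0 → P ≠ -1 → P ≠ -w → L * (P + 1) = P + w →
      (χ L - 1) * (c χ + χ⁻¹ P * c χ⁻¹) = 0) :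
    c χ = 0 := by
  classical
  by_contra hc
  have h3k : 3 * (fib χ 1).card ≤ r - 1 := three_mul_card_fib_one_le χ hχ
  let S : Finset (ZMod r) := Finset.univ \ {0, -1, -w}
  have hS : ∀ P, P ∈ S ↔ P ≠ 0 ∧ P ≠ -1 ∧ P ≠ -w := by
    intro P
    simp [S]
  have hScard : r - 3 ≤ S.card := by
    have h1 : (Finset.univ : Finset (ZMod r)).card - ({0, -1, -w} : Finset (ZMod r)).card
        ≤ S.card := Finset.le_card_sdiff ({0, -1, -w} : Finset (ZMod r)) Finset.univ
    have h2 : ({0, -1, -w} : Finset (ZMod r)).card ≤ 3 := Finset.card_le_three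
    rw [Finset.card_univ, ZMod.card] at h1
    omega
  let A := S.filter (fun P => χ (Lmap w P) = 1)
  let B := S.filter (fun P => χ⁻¹ P * c χ⁻¹ = - c χ)
  have hAB : S ⊆ A ∪ B := by
    intro P hP
    obtain ⟨h0, h1, hw⟩ := (hS P).mp hP
    have := hid P (Lmap w P) h0 h1 hw (Lmap_spec w P h1)
    rcases mul_eq_zero.mp this with h | h
    · exact Finset.mem_union_left _ (Finset.mem_filter.mpr ⟨hP, sub_eq_zero.mp h⟩)
    · exact Finset.mem_union_right _ (Finset.mem_filter.mpr ⟨hP, by linear_combination h⟩)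
  have h1mem : (1 : ZMod r) ∈ fib χ 1 := by rw [mem_fib, map_one]
  have hA : A.card + 1 ≤ (fib χ 1).card := by
    have h2 : A.card ≤ ((fib χ 1).erase 1).card := by
      apply Finset.card_le_card_of_injOn (Lmap w)
      · intro P hP
        obtain ⟨hPS, hPχ⟩ := Finset.mem_filter.mp hP
        obtain ⟨h0, h1, hw⟩ := (hS P).mp hPS
        show Lmap w P ∈ (fib χ 1).erase 1
        rw [Finset.mem_erase, mem_fib]
        exact ⟨Lmap_ne_one w hw1 h1, hPχ⟩
      · intro P hP P' hP' h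
        have hP1 := ((hS P).mp (Finset.mem_filter.mp hP).1).2.1
        have hP'1 := ((hS P').mp (Finset.mem_filter.mp hP').1).2.1
        exact Lmap_inj w hw1 hP1 hP'1 h
    rw [Finset.card_erase_of_mem h1mem] at h2
    have h3 : 0 < (fib χ 1).card := Finset.card_pos.mpr ⟨1, h1mem⟩
    omega
  have hB : B.card ≤ (fib χ 1).card := by
    apply card_le_fib_one χ B
    · intro P hP
      exact ((hS P).mp (Finset.mem_filter.mp hP).1).1
    · intro P hP P' hP'
      have e1 := (Finset.mem_filter.mp hP).2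
      have e2 := (Finset.mem_filter.mp hP').2
      have hc' : c χ⁻¹ ≠ 0 := by
        intro h0
        rw [h0, mul_zero] at e1
        exact hc (neg_eq_zero.mp e1.symm)
      have h5 : χ⁻¹ P = χ⁻¹ P' := mul_right_cancel₀ hc' (e1.trans e2.symm)
      rw [MulChar.inv_apply_eq_inv', MulChar.inv_apply_eq_inv'] at h5
      exact inv_injective h5
  have h6 := Finset.card_le_card hAB
  have h7 := Finset.card_union_le A B
  omega

/-- (FE3) the non-trivial quadratic character has zero coefficient when `r ≡ 3 mod 4`,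
`w` a square, `2 ≠ 0` in `F`. -/
theorem coef_eq_zero_of_quadratic (hr4 : r % 4 = 3) (h2 : (2 : F) ≠ 0)
    (w : ZMod r) (hw0 : w ≠ 0) (hw1 : w ≠ 1) (hwsq : IsSquare w)
    (c : MulChar (ZMod r) F → F) (χ : MulChar (ZMod r) F) (hχ1 : χ ≠ 1) (hχ2 : χ ^ 2 = 1)
    (hid : ∀ P L : ZMod r, P ≠ 0 → P ≠ -1 → P ≠ -w → L * (P + 1) = P + w →
      (χ L - 1) * (c χ + χ⁻¹ P * c χ⁻¹) = 0) :
    c χ = 0 := by
  classical
  by_contra hc
  have hinv : χ⁻¹ = χ := by
    apply inv_eq_of_mul_eq_one_left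
    rw [← pow_two]; exact hχ2
  have h2k : 2 * (fib χ 1).card ≤ r - 1 := two_mul_card_fib_one_le χ hχ1
  have hsqχ : ∀ s : ZMod r, s ≠ 0 → χ (s ^ 2) = 1 := by
    intro s hs
    rw [map_pow, ← MulChar.pow_apply' χ two_ne_zero, hχ2,
      MulChar.one_apply (isUnit_iff_ne_zero.mpr hs)]
  have hneg1 : ¬ IsSquare (-1 : ZMod r) := by
    rw [ZMod.exists_sq_eq_neg_one_iff]
    simpa using hr4
  obtain ⟨v, hv⟩ := hwsq
  have hv0 : v ≠ 0 := by
    rintro rfl
    rw [mul_zero] at hv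
    exact hw0 hv
  have hnegw : ¬ IsSquare (-w) := by
    rintro ⟨s, hs⟩
    apply hneg1
    refine ⟨s * v⁻¹, ?_⟩
    have : s * v⁻¹ * (s * v⁻¹) = (s * s) * (v * v)⁻¹ := by
      rw [mul_inv]; ring
    rw [this, ← hs, ← hv, neg_mul, mul_inv_cancel₀ hw0]
  have hwχ : χ w = 1 := by
    rw [hv, ← pow_two]; exact hsqχ v hv0
  let Q : Finset (ZMod r) := (Finset.univ.erase 0).image (fun s => s ^ 2)
  have hQcard : r - 1 ≤ 2 * Q.card := by
    have h1 := Finset.card_le_mul_card_image (s := Finset.univ.erase (0 : ZMod r))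
      (f := fun s => s ^ 2) 2 (by
        intro a ha
        obtain ⟨s0, _, rfl⟩ := Finset.mem_image.mp ha
        have hsub : (Finset.univ.erase (0 : ZMod r)).filter (fun x => x ^ 2 = s0 ^ 2)
            ⊆ {s0, -s0} := by
          intro x hx
          have hx2 := (Finset.mem_filter.mp hx).2
          rw [Finset.mem_insert, Finset.mem_singleton]
          exact sq_eq_sq_iff_eq_or_eq_neg.mp hx2
        exact (Finset.card_le_card hsub).trans Finset.card_le_two)
    rw [card_nonzero] at h1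
    exact h1
  have hQ : ∀ P ∈ Q, P ≠ 0 ∧ P ≠ -1 ∧ P ≠ -w ∧ χ (Lmap w P) = 1 := by
    intro P hP
    obtain ⟨s, hs, rfl⟩ := Finset.mem_image.mp hP
    have hs0 : s ≠ 0 := (Finset.mem_erase.mp hs).1
    have h0 : s ^ 2 ≠ 0 := pow_ne_zero 2 hs0
    have h1 : s ^ 2 ≠ -1 := by
      intro h
      exact hneg1 ⟨s, by rw [← h, pow_two]⟩
    have hw : s ^ 2 ≠ -w := by
      intro h
      exact hnegw ⟨s, by rw [← h, pow_two]⟩
    refine ⟨h0, h1, hw, ?_⟩
    have := hid (s ^ 2) (Lmap w (s ^ 2)) h0 h1 hw (Lmap_spec w (s ^ 2) h1)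
    rw [hinv, hsqχ s hs0, one_mul] at this
    rcases mul_eq_zero.mp this with h | h
    · exact sub_eq_zero.mp h
    · exfalso
      have : (2 : F) * c χ = 0 := by linear_combination h
      rcases mul_eq_zero.mp this with h' | h'
      · exact h2 h'
      · exact hc h'
  have h1mem : (1 : ZMod r) ∈ fib χ 1 := by rw [mem_fib, map_one]
  have hwmem : w ∈ (fib χ 1).erase 1 := by
    rw [Finset.mem_erase, mem_fib]
    exact ⟨hw1, hwχ⟩
  have hQk : Q.card ≤ (((fib χ 1).erase 1).erase w).card := by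
    apply Finset.card_le_card_of_injOn (Lmap w)
    · intro P hP
      obtain ⟨h0, h1, hw, hχL⟩ := hQ P hP
      show Lmap w P ∈ ((fib χ 1).erase 1).erase w
      rw [Finset.mem_erase, Finset.mem_erase, mem_fib]
      exact ⟨Lmap_ne_w w hw1 h1 h0, Lmap_ne_one w hw1 h1, hχL⟩
    · intro P hP P' hP' h
      exact Lmap_inj w hw1 (hQ P hP).2.1 (hQ P' hP').2.1 h
  rw [Finset.card_erase_of_mem hwmem, Finset.card_erase_of_mem h1mem] at hQk
  omega

end Fermat.Agent.S41.CspFE7
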