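import Mathlib
import Fermat.Agent.S41.CspFE7.Coef

/-!
# Lemma FE (helper7, report #3041 §2), part 4: Fourier inversion.
-/

set_option autoImplicit false

open scoped BigOperators

namespace Fermat.Agent.S41.CspFE7

variable {r : ℕ} [Fact r.Prime] {F : Type*} [Field F]

/-- (FE4) Fourier inversion: if all non-trivial coefficients vanish, `Ψ` is constant on units. -/
theorem const_of_coef_eq_zero [HasEnoughRootsOfUnity F (Monoid.exponent (ZMod r)ˣ)]
    (hr1 : ((r - 1 : ℕ) : F) ≠ 0) (Ψ : ZMod r → F)
    (h : ∀ χ : MulChar (ZMod r) F, χ ≠ 1 → coef Ψ χ = 0) :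
    ∀ x y : ZMod r, x ≠ 0 → y ≠ 0 → Ψ x = Ψ y := by
  have hr : r.Prime := Fact.out
  have : NeZero r := ⟨hr.ne_zero⟩
  have htot : (r.totient : F) = ((r - 1 : ℕ) : F) := by rw [Nat.totient_prime hr]
  -- key: for a unit `a`, `Ψ a * (r-1) = coef Ψ 1`
  have key : ∀ a : ZMod r, a ≠ 0 → Ψ a * ((r - 1 : ℕ) : F) = coef Ψ 1 := by
    intro a ha
    have hau : IsUnit a := isUnit_iff_ne_zero.mpr ha
    -- compute S := ∑ χ, χ a * coef Ψ χ in two ways
    have h1 : ∑ χ : DirichletCharacter F r, χ a * coef Ψ χ = coef Ψ 1 := by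
      rw [Finset.sum_eq_single (1 : DirichletCharacter F r)]
      · rw [MulChar.one_apply hau, one_mul]
      · intro χ _ hχ
        rw [h χ hχ, mul_zero]
      · intro h'; exact absurd (Finset.mem_univ _) h'
    have h2 : ∑ χ : DirichletCharacter F r, χ a * coef Ψ χ = Ψ a * ((r - 1 : ℕ) : F) := by
      simp only [coef, Finset.mul_sum]
      rw [Finset.sum_comm]
      have : ∀ z : ZMod r, ∑ χ : DirichletCharacter F r, χ a * (Ψ z * χ⁻¹ z)
          = Ψ z * (if z = a then (r.totient : F) else 0) := by
        intro z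
        by_cases hz : z = 0
        · subst hz
          have h0a : (0 : ZMod r) ≠ a := fun h0 => ha h0.symm
          rw [if_neg h0a, mul_zero]
          refine Finset.sum_eq_zero (fun χ _ => ?_)
          rw [MulChar.map_zero, mul_zero, mul_zero]
        · have hzu : IsUnit z := isUnit_iff_ne_zero.mpr hz
          rw [← DirichletCharacter.sum_char_inv_mul_char_eq F hzu a, Finset.mul_sum]
          refine Finset.sum_congr rfl (fun χ _ => ?_)
          rw [MulChar.inv_apply']; ring
      rw [Finset.sum_congr rfl (fun z _ => this z)]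
      rw [Finset.sum_eq_single a]
      · rw [if_pos rfl, htot]
      · intro z _ hz
        rw [if_neg hz, mul_zero]
      · intro h'; exact absurd (Finset.mem_univ _) h'
    rw [← h2, h1]
  intro x y hx hy
  have := (key x hx).trans (key y hy).symm
  exact mul_right_cancel₀ hr1 this

end Fermat.Agent.S41.CspFE7
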