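import Mathlib
import Fermat.Agent.S41.CspFE7.Coef
import Fermat.Agent.S41.CspFE7.Inversion
import Fermat.Agent.S41.CspFE7.Counting

/-!
# Lemma FE (helper7, report #3041 §2): assembly and the consumer forms.
-/

set_option autoImplicit false

open scoped BigOperators

namespace Fermat.Agent.S41.CspFE7

lemma no_sq_three : ∀ w : ZMod 3, w ≠ 0 → w ≠ 1 → ¬ IsSquare w := by decide

variable {r : ℕ} [Fact r.Prime] {F : Type*} [Field F]

/-- Lemma FE over an arbitrary field with enough roots of unity. -/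
theorem FE_const [HasEnoughRootsOfUnity F (Monoid.exponent (ZMod r)ˣ)]
    (hr4 : r % 4 = 3) (h2 : (2 : F) ≠ 0) (hr1 : ((r - 1 : ℕ) : F) ≠ 0)
    (w : ZMod r) (hw0 : w ≠ 0) (hw1 : w ≠ 1) (hwsq : IsSquare w)
    (Ψ : ZMod r → F) (h : FE Ψ w) :
    ∀ x y : ZMod r, x ≠ 0 → y ≠ 0 → Ψ x = Ψ y := by
  have hr5 : 5 ≤ r := by
    by_contra hlt
    have hr3 : r = 3 := by omega
    subst hr3
    exact no_sq_three w hw0 hw1 hwsq
  refine const_of_coef_eq_zero hr1 Ψ (fun χ hχ => ?_)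
  by_cases h2χ : χ ^ 2 = 1
  · exact coef_eq_zero_of_quadratic hr4 h2 w hw0 hw1 hwsq (coef Ψ) χ hχ h2χ
      (fun P L hP0 hP1 hPw hL => coef_identity Ψ w h χ P L hP0 hP1 hPw hL)
  · exact coef_eq_zero_of_sq_ne_one hr5 w hw0 hw1 (coef Ψ) χ h2χ
      (fun P L hP0 hP1 hPw hL => coef_identity Ψ w h χ P L hP0 hP1 hPw hL)

/-- Final form used by the CSP leaf: `ψ : (ZMod r)ˣ → ZMod p`. -/
theorem FE_const_zmod {p : ℕ} [Fact p.Prime] (hp2 : p ≠ 2) (hr4 : r % 4 = 3) (hpr : ¬ p ∣ r - 1)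
    (w : (ZMod r)ˣ) (hw1 : w ≠ 1) (hwsq : IsSquare w)
    (ψ : (ZMod r)ˣ → ZMod p)
    (h : ∀ x y L : (ZMod r)ˣ, (x * y : ZMod r) ≠ -1 → (x * y : ZMod r) ≠ -w →
      (L : ZMod r) * (x * y + 1) = x * y + w → ψ (x * L) + ψ (y * L⁻¹) = ψ x + ψ y) :
    ∀ x : (ZMod r)ˣ, ψ x = ψ 1 := by
  classical
  have hr : r.Prime := Fact.out
  have hp : p.Prime := Fact.out
  have hexp : Monoid.exponent (ZMod r)ˣ ∣ r - 1 := by
    have h1 := Group.exponent_dvd_card (G := (ZMod r)ˣ)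
    rwa [ZMod.card_units_eq_totient, Nat.totient_prime hr] at h1
  have hne : NeZero ((Monoid.exponent (ZMod r)ˣ : ℕ) : ZMod p) := ⟨by
    rw [Ne, ZMod.natCast_eq_zero_iff]
    intro hd
    exact hpr (hd.trans hexp)⟩
  let ι : ZMod p →+* AlgebraicClosure (ZMod p) := algebraMap (ZMod p) (AlgebraicClosure (ZMod p))
  have hι : Function.Injective ι := ι.injective
  let Ψ : ZMod r → AlgebraicClosure (ZMod p) := fun z => if hz : IsUnit z then ι (ψ hz.unit) else 0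
  have hΨ : ∀ u : (ZMod r)ˣ, Ψ (u : ZMod r) = ι (ψ u) := by
    intro u
    have hu : IsUnit (u : ZMod r) := u.isUnit
    simp only [Ψ, dif_pos hu]
    congr 2
    exact Units.ext (IsUnit.unit_spec hu)
  have hFE : FE Ψ (w : ZMod r) := by
    intro x y L hx hy hxy1 hxyw hL
    have hL0 : L ≠ 0 := by
      rintro rfl
      rw [zero_mul] at hL
      exact hxyw (eq_neg_of_add_eq_zero_left hL.symm)
    obtain ⟨x, rfl⟩ := (isUnit_iff_ne_zero.mpr hx)
    obtain ⟨y, rfl⟩ := (isUnit_iff_ne_zero.mpr hy)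
    obtain ⟨L, rfl⟩ := (isUnit_iff_ne_zero.mpr hL0)
    have := h x y L hxy1 hxyw hL
    rw [← Units.val_mul, ← Units.val_inv_eq_inv_val, ← Units.val_mul, hΨ, hΨ, hΨ, hΨ,
      ← map_add, ← map_add, this]
  have h2F : (2 : AlgebraicClosure (ZMod p)) ≠ 0 := by
    have : (2 : ZMod p) ≠ 0 := by
      intro h0
      have : ((2 : ℕ) : ZMod p) = 0 := by exact_mod_cast h0
      rw [ZMod.natCast_eq_zero_iff] at this
      exact hp2 ((Nat.prime_dvd_prime_iff_eq hp Nat.prime_two).mp this)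
    intro h0
    apply this
    apply hι
    rw [map_zero, map_ofNat]; exact h0
  have hr1F : ((r - 1 : ℕ) : AlgebraicClosure (ZMod p)) ≠ 0 := by
    intro h0
    have : ((r - 1 : ℕ) : ZMod p) = 0 := by
      apply hι
      rw [map_zero, map_natCast]; exact h0
    rw [ZMod.natCast_eq_zero_iff] at this
    exact hpr this
  have hw0 : (w : ZMod r) ≠ 0 := Units.ne_zero w
  have hw1' : (w : ZMod r) ≠ 1 := fun h1 => hw1 (Units.ext h1)
  have hwsq' : IsSquare (w : ZMod r) := by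
    obtain ⟨v, rfl⟩ := hwsq
    exact ⟨(v : ZMod r), by rw [Units.val_mul]⟩
  have key := FE_const hr4 h2F hr1F (w : ZMod r) hw0 hw1' hwsq' Ψ hFE
  intro x
  apply hι
  rw [← hΨ, ← hΨ]
  exact key x (1 : (ZMod r)ˣ) (Units.ne_zero x) (Units.ne_zero 1)

/-- Multiplicative twin of `FE_const_zmod`. -/
theorem FE_const_mul {p : ℕ} [Fact p.Prime] (hp2 : p ≠ 2) (hr4 : r % 4 = 3) (hpr : ¬ p ∣ r - 1)
    (w : (ZMod r)ˣ) (hw1 : w ≠ 1) (hwsq : IsSquare w)
    (ψ : (ZMod r)ˣ → Multiplicative (ZMod p))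
    (h : ∀ x y L : (ZMod r)ˣ, (x * y : ZMod r) ≠ -1 → (x * y : ZMod r) ≠ -w →
      (L : ZMod r) * (x * y + 1) = x * y + w → ψ (x * L) * ψ (y * L⁻¹) = ψ x * ψ y) :
    ∀ x : (ZMod r)ˣ, ψ x = ψ 1 := by
  intro x
  have := FE_const_zmod hp2 hr4 hpr w hw1 hwsq (fun u => Multiplicative.toAdd (ψ u))
    (fun a b L h1 h2 h3 => by
      have := congrArg Multiplicative.toAdd (h a b L h1 h2 h3)
      simpa using this) x
  exact Multiplicative.toAdd.injective this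

end Fermat.Agent.S41.CspFE7
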