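import Mathlib
import Fermat.Agent.S41.CspFE7.Main
import Fermat.Agent.S41.CspInv19.PsiLayer
import Fermat.Agent.S41.CspRed52.Chain52

/-!
# Backup route (helper7 #3041): the last adapter.

`LevelStatement q p` (helper52, `CspRed52.Chain52`) from helper19's `phi_eq_one_at_level`
(`CspInv19.PsiLayer`), Lemma FE (`FE_const_mul`) and the arithmetic consequences of `GoodPrime`
(helper31, `CspArith31`).  Consequence: `Ihara73.CSPPlug N q p` for all odd primes `p ≠ q`, `q ∤ N`.
-/

set_option autoImplicit false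

namespace Fermat.Agent.S41.CspFE7

open Matrix Fermat.Agent.S41.Amalgam95

/-- the multiplicative homomorphism on `Δ` attached to a parabolic symbol. -/
def homOfSymbol {N q p : ℕ} (F : SLQ → ZMod p) (hF : CspRed52.IsParSymbol N q F) :
    ↥(DeltaQ N q) →* Multiplicative (ZMod p) where
  toFun g := Multiplicative.ofAdd (F (g : SLQ))
  map_one' := by
    show Multiplicative.ofAdd (F (1 : SLQ)) = 1
    rw [hF.map_one]; rfl
  map_mul' g h := by
    show Multiplicative.ofAdd (F ((g : SLQ) * (h : SLQ))) = _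
    rw [hF.map_mul _ _ g.2 h.2]; rfl

lemma homOfSymbol_apply {N q p : ℕ} (F : SLQ → ZMod p) (hF : CspRed52.IsParSymbol N q F)
    (g : ↥(DeltaQ N q)) : homOfSymbol F hF g = Multiplicative.ofAdd (F (g : SLQ)) := rfl

/-- an odd number coprime to the odd part of `T` is coprime to `T`. -/
lemma coprime_of_odd_of_coprime_ordCompl {m T : ℕ} (hm : Odd m)
    (h : m.Coprime (ordCompl[2] T)) : m.Coprime T := by
  have hsplit : ordProj[2] T * ordCompl[2] T = T := Nat.ordProj_mul_ordCompl_eq_self T 2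
  rw [← hsplit]
  refine Nat.Coprime.mul_right ?_ h
  exact Nat.Coprime.pow_right _ ((Nat.coprime_two_right).2 hm)

theorem levelStatement (q p : ℕ) [hq : Fact q.Prime] [hp : Fact p.Prime] (hp2 : p ≠ 2) :
    CspRed52.LevelStatement q p := by
  intro N hN hqN F hF r hr g hg a h0 ha h1
  have hrP : r.Prime := hr.prime
  have : Fact r.Prime := ⟨hrP⟩
  have hr4 : r % 4 = 3 := hr.mod4
  have hr2 : r ≠ 2 := by
    intro h
    rw [h] at hr4
    omega
  have hq1 : 1 < q := hq.out.one_lt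
  have hqsq : q ≤ q ^ 2 := by nlinarith
  have hqr : ¬ r ∣ q := by
    intro hd
    have h1 : r ≤ q := Nat.le_of_dvd hq.out.pos hd
    have := hr.gt
    omega
  have hr1 : 1 ≤ r := hrP.pos
  have hrodd : Odd r := CspArith31.odd_of_mod_four hr.mod4
  have hTodd : Odd (ordCompl[2] (N * Nat.totient (2 * N) * p)) := by
    have hT0 : N * Nat.totient (2 * N) * p ≠ 0 := by
      have h1 : 0 < Nat.totient (2 * N) := Nat.totient_pos.mpr (by omega)
      exact (Nat.mul_pos (Nat.mul_pos hN h1) hp.out.pos).ne'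
    rw [← Nat.not_even_iff_odd, even_iff_two_dvd]
    exact Nat.not_dvd_ordCompl Nat.prime_two hT0
  have hcop : (r - 1).Coprime (ordCompl[2] (N * Nat.totient (2 * N) * p)) :=
    CspArith31.coprime_pred_of_modEq_two hr1 hr.modK
  have hpr : ¬ p ∣ r - 1 :=
    CspArith31.not_dvd_pred_of_coprime hp.out hp2 (Dvd.intro_left _ rfl) hcop
  have hhalf : ((r - 1) / 2).Coprime (2 * (N * Nat.totient (2 * N) * p)) := by
    have hodd := CspArith31.odd_half_pred_of_mod_four hr.mod4
    have h2K := CspArith31.coprime_half_pred hr1 hr.mod4 hr.modK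
    have hK : ((r - 1) / 2).Coprime (ordCompl[2] (N * Nat.totient (2 * N) * p)) :=
      Nat.Coprime.coprime_mul_left_right h2K
    exact Nat.Coprime.mul_right ((Nat.coprime_two_right).2 hodd)
      (coprime_of_odd_of_coprime_ordCompl hodd hK)
  have hNr : N.Coprime r := by
    have h1 : r.Coprime (ordCompl[2] (N * Nat.totient (2 * N) * p)) :=
      CspArith31.coprime_of_modEq_two hTodd hr.modK
    have h2 : r.Coprime (N * Nat.totient (2 * N) * p) :=
      coprime_of_odd_of_coprime_ordCompl hrodd h1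
    have h3 : r.Coprime N :=
      Nat.Coprime.coprime_dvd_right (Dvd.intro _ (by rw [mul_assoc])) h2
    exact h3.symm
  -- the unit `w = q²`
  have hqr' : q.Coprime r := ((Nat.Prime.coprime_iff_not_dvd hrP).mpr hqr).symm
  set u : (ZMod r)ˣ := ZMod.unitOfCoprime q hqr' with hu_def
  have hw : ((u ^ 2 : (ZMod r)ˣ) : ZMod r) = (q : ZMod r) ^ 2 := by
    rw [Units.val_pow_eq_pow_val, hu_def, ZMod.coe_unitOfCoprime]
  have hw1 : u ^ 2 ≠ 1 := by
    intro h
    have h2 : ((u ^ 2 : (ZMod r)ˣ) : ZMod r) = 1 := by rw [h]; rfl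
    rw [hw] at h2
    have h3 : ((q ^ 2 : ℕ) : ZMod r) = ((1 : ℕ) : ZMod r) := by push_cast; exact h2
    rw [ZMod.natCast_eq_natCast_iff'] at h3
    have hgt := hr.gt
    rw [Nat.mod_eq_of_lt hgt, Nat.mod_eq_of_lt (by omega : 1 < r)] at h3
    nlinarith
  have hwsq : IsSquare (u ^ 2) := ⟨u, sq u⟩
  -- the homomorphism
  have hu : CspInv19.KillsU (homOfSymbol F hF) := by
    intro x hx
    rw [homOfSymbol_apply]
    show Multiplicative.ofAdd (F (uQ x)) = 1
    rw [hF.map_uQ x hx]; rfl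
  have hl : homOfSymbol F hF ⟨CspInv19.lQ ((N : ℚ) * ((r : ℤ) : ℚ)),
      CspInv19.lQ_mem_DeltaQ (r : ℤ)⟩ = 1 := by
    rw [homOfSymbol_apply]
    show Multiplicative.ofAdd (F (CspRed52.lQ ((N : ℚ) * ((r : ℤ) : ℚ)))) = 1
    rw [hF.map_lQ _ (IsAway.of_int (r : ℤ))]; rfl
  have g10 : ((⟨g, hg⟩ : ↥(DeltaQ N q)) : SLQ) 1 0 = (N : ℚ) * (r : ℚ) := by
    show g 1 0 = (N : ℚ) * (r : ℚ)
    rw [h1]; push_cast; ring
  have key := CspInv19.phi_eq_one_at_level (p := p) (homOfSymbol F hF) hN hqN hr2 hqr hNr hhalf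
    hu hl (u ^ 2) hw
    (fun ψ hψ => FE_const_mul hp2 hr4 hpr (u ^ 2) hw1 hwsq ψ hψ) ⟨g, hg⟩ g10 ⟨a, h0, ha⟩
  rw [homOfSymbol_apply] at key
  exact Multiplicative.ofAdd.injective key

/-- **The congruence subgroup property, consumer form, by the backup route**
(helper7 #3041: (INV) + Lemma FE + Dirichlet). -/
theorem backup_cspPlug73 (N q p : ℕ) [Fact q.Prime] (hp : p.Prime) (hp2 : p ≠ 2)
    (hqN : ¬ q ∣ N) (hqp : q ≠ p) (hN : 0 < N) :
    Fermat.Agent.S41.Ihara73.CSPPlug N q p := by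
  have : Fact p.Prime := ⟨hp⟩
  exact CspRed52.cspPlug73_of_level hp (Ne.symm hqp) hN hqN (levelStatement q p hp2)

end Fermat.Agent.S41.CspFE7
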