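import Mathlib

/-!
# Backup route (helper7 #3041), §3 (iii): the residue bookkeeping of the relation (ii).

Pure `ℤ` / `ZMod r` statement, no group API: given the integers occurring in (INV) at level
`c = N r`, the residues of `a = a₁ + (w-1)/t` and of `t - w d` are `x L` and `y L⁻¹`.
-/

set_option autoImplicit false

namespace Fermat.Agent.S41.CspFE7

/-- Residues of the two new upper-left entries in (INV).

* `a₁ ≡ 1 [N]`, `a₁ ≡ x [r]`, `a₁ d₁ ≡ 1 [N r]` (first matrix `g₁`),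
* `a₂ ≡ 1 [N]`, `a₂ ≡ y [r]`, `t ≡ a₂ + d₁ [N r]` (second matrix `g₂`, upper-left `t - d₁`),
* `w - 1 = N t m`, `w ≡ w* [r]`, `a = a₁ + N m` (so `a t = a₁ t + (w - 1)`), `a d ≡ 1 [N r]`,
* `L (x y + 1) = x y + w*`, `x y ≠ -1`.
-/
theorem psi_arith {N r : ℕ} [Fact r.Prime]
    (x y L : (ZMod r)ˣ) (wq : ZMod r)
    (hxy1 : (x * y : ZMod r) ≠ -1) (hL : (L : ZMod r) * (x * y + 1) = x * y + wq)
    (a₁ d₁ a₂ t w m a d : ℤ)
    (ha₁N : a₁ ≡ 1 [ZMOD N]) (ha₁r : (a₁ : ZMod r) = x)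
    (hd₁ : a₁ * d₁ ≡ 1 [ZMOD ((N : ℤ) * r)])
    (ha₂N : a₂ ≡ 1 [ZMOD N]) (ha₂r : (a₂ : ZMod r) = y)
    (ht : t ≡ a₂ + d₁ [ZMOD ((N : ℤ) * r)])
    (hw : w - 1 = N * t * m) (hwr : (w : ZMod r) = wq)
    (ha : a = a₁ + N * m)
    (hd : a * d ≡ 1 [ZMOD ((N : ℤ) * r)]) :
    a ≡ 1 [ZMOD N] ∧ (a : ZMod r) = x * L ∧
      t - w * d ≡ 1 [ZMOD N] ∧ ((t - w * d : ℤ) : ZMod r) = y * L⁻¹ := by
  -- mod N
  have haN : a ≡ 1 [ZMOD N] := by
    rw [ha]
    have : a₁ + (N : ℤ) * m ≡ a₁ [ZMOD N] := by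
      have h0 : (N : ℤ) * m ≡ 0 [ZMOD N] := (Int.modEq_zero_iff_dvd).mpr (Dvd.intro m rfl)
      have h1 := (Int.ModEq.refl a₁).add h0
      rwa [add_zero] at h1
    exact this.trans ha₁N
  have hd₁N : d₁ ≡ 1 [ZMOD N] := by
    have h1 : a₁ * d₁ ≡ 1 [ZMOD N] := Int.ModEq.of_mul_right (r : ℤ) hd₁
    have h2 : a₁ * d₁ ≡ 1 * d₁ [ZMOD N] := ha₁N.mul_right d₁
    rw [one_mul] at h2
    exact h2.symm.trans h1
  have hdN : d ≡ 1 [ZMOD N] := by
    have h1 : a * d ≡ 1 [ZMOD N] := Int.ModEq.of_mul_right (r : ℤ) hd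
    have h2 : a * d ≡ 1 * d [ZMOD N] := haN.mul_right d
    rw [one_mul] at h2
    exact h2.symm.trans h1
  have hwN : w ≡ 1 [ZMOD N] := by
    have h0 : w - 1 ≡ 0 [ZMOD N] := by
      rw [hw]
      exact (Int.modEq_zero_iff_dvd).mpr ⟨t * m, by ring⟩
    have := h0.add_right 1
    simpa using this
  have htN : t ≡ 2 [ZMOD N] := by
    have h1 : t ≡ a₂ + d₁ [ZMOD N] := Int.ModEq.of_mul_right (r : ℤ) ht
    have h2 : a₂ + d₁ ≡ 1 + 1 [ZMOD N] := ha₂N.add hd₁N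
    exact h1.trans (by simpa using h2)
  have htwdN : t - w * d ≡ 1 [ZMOD N] := by
    have h1 : t - w * d ≡ 2 - 1 * 1 [ZMOD N] := htN.sub (hwN.mul hdN)
    simpa using h1
  -- mod r
  have hx0 : (x : ZMod r) ≠ 0 := x.ne_zero
  have hL0 : (L : ZMod r) ≠ 0 := L.ne_zero
  have hP1 : (x * y + 1 : ZMod r) ≠ 0 := fun h => hxy1 (eq_neg_of_add_eq_zero_left h)
  have hd₁r : (x : ZMod r) * (d₁ : ZMod r) = 1 := by
    have h1 : a₁ * d₁ ≡ 1 [ZMOD (r : ℤ)] := Int.ModEq.of_mul_left (N : ℤ) hd₁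
    have h2 := (ZMod.intCast_eq_intCast_iff _ _ _).mpr h1
    push_cast at h2
    rw [ha₁r] at h2
    exact h2
  have htr : (t : ZMod r) = y + d₁ := by
    have h1 : t ≡ a₂ + d₁ [ZMOD (r : ℤ)] := Int.ModEq.of_mul_left (N : ℤ) ht
    have h2 := (ZMod.intCast_eq_intCast_iff _ _ _).mpr h1
    push_cast at h2
    rw [ha₂r] at h2
    exact h2
  have hxt : (x : ZMod r) * (t : ZMod r) = x * y + 1 := by
    rw [htr, mul_add, hd₁r]
  have hat : (a : ZMod r) * (t : ZMod r) = x * t + (wq - 1) := by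
    have h1 : a * t = a₁ * t + (w - 1) := by rw [ha, hw]; ring
    have h2 : ((a * t : ℤ) : ZMod r) = ((a₁ * t + (w - 1) : ℤ) : ZMod r) := by rw [h1]
    push_cast at h2
    rw [ha₁r, hwr] at h2
    exact h2
  have har : (a : ZMod r) = x * L := by
    have h1 : (a : ZMod r) * (x * y + 1) = x * L * (x * y + 1) := by
      calc (a : ZMod r) * (x * y + 1) = x * ((a : ZMod r) * t) := by rw [← hxt]; ring
        _ = x * (x * t + (wq - 1)) := by rw [hat]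
        _ = x * (x * y + wq) := by rw [hxt]; ring
        _ = x * L * (x * y + 1) := by rw [← hL]; ring
    exact mul_right_cancel₀ hP1 h1
  have hdr : (x : ZMod r) * L * (d : ZMod r) = 1 := by
    have h1 : a * d ≡ 1 [ZMOD (r : ℤ)] := Int.ModEq.of_mul_left (N : ℤ) hd
    have h2 := (ZMod.intCast_eq_intCast_iff _ _ _).mpr h1
    push_cast at h2
    rw [har] at h2
    exact h2
  have hfin : ((t - w * d : ℤ) : ZMod r) = y * L⁻¹ := by
    push_cast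
    rw [hwr]
    have hxL : (x : ZMod r) * L ≠ 0 := mul_ne_zero hx0 hL0
    apply mul_left_cancel₀ hxL
    calc (x : ZMod r) * L * ((t : ZMod r) - wq * d)
        = L * (x * t) - wq * (x * L * d) := by ring
      _ = L * (x * y + 1) - wq := by rw [hxt, hdr, mul_one]
      _ = x * y := by rw [hL]; ring
      _ = x * L * (y * (L : ZMod r)⁻¹) := by
        field_simp
  exact ⟨haN, har, htwdN, hfin⟩

end Fermat.Agent.S41.CspFE7
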